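import Mathlib
import Fermat.Agent.Gateway.EigenChar
import Fermat.Agent.S22

/-!
# P-S44/S40, block A, leaf (A1): the mod `p` eigencharacter `θ : 𝕋_S(N) →+* ZMod p` (helper89)

`f` a normalised eigenform of level `N`, `𝔪` a maximal ideal of the ring of algebraic integers
`integralClosure ℤ ℂ` containing `p`, `S ⊇ {primes dividing N}` a finite set of primes and
`a : ℕ → ℤ` a family of integers with `a_ℓ(f) ≡ a ℓ mod 𝔪` for all primes `ℓ ∉ S`, `ℓ ∤ N`.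

Then there is a ring homomorphism `θ : heckeAlgebra N 2 S →+* ZMod p` with `θ (T ℓ) = a ℓ` for every
prime `ℓ ∤ N`, `ℓ ∉ S`, which is the reduction modulo `𝔪` of the eigencharacter of `f`
(`exists_theta`).  [As `S` contains the primes of `N`, the Hecke algebra has no `U_q` generators:
it is generated by the `T ℓ`, whose eigenvalues are congruent to rational integers.]

`exists_theta_of_curve` is the instance used for S40 (`W.IsResiduallyModularOfLevel p N`) and for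
S44 (`P.ModularRepOfLevel N`): `S = levelSet N W = N.primeFactors ∪ |Δ(W)|.primeFactors`,
`a ℓ = W.apOfModel ℓ`.  This choice of `S` is FORCED: the conclusion of S40/S44 at level `N / p`
asks for the congruences at every prime `ℓ` good for `W`, `ℓ ∤ N / p`, `ℓ ≠ p`, and these are
exactly the primes outside `levelSet N W` when `p ∣ N`.
-/

set_option autoImplicit false

noncomputable section

namespace Fermat.Agent.S40x.A1.Theta

open CuspForm ModularFormClass CongruenceSubgroup Fermat.Agent.Gateway.Assembly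

variable {N : ℕ} [NeZero N] {S : Finset ℕ}

/-- the eigencharacter of a normalised eigenform, with values in the algebraic integers -/
def eigenCharInt (hNS : ∀ q : ℕ, q.Prime → q ∣ N → q ∈ (↑S : Set ℕ))
    {f : CuspForm (Gamma0 N) 2} (hf : f.IsNormalizedEigenform) :
    heckeAlgebra N 2 (↑S : Set ℕ) →+* integralClosure ℤ ℂ :=
  RingHom.codRestrict (eigenChar hNS hf) (integralClosure ℤ ℂ)
    (fun t => eigenChar_isIntegral hNS hf (Fermat.Agent.S22.result N 2 _) t)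

theorem coe_eigenCharInt (hNS : ∀ q : ℕ, q.Prime → q ∣ N → q ∈ (↑S : Set ℕ))
    {f : CuspForm (Gamma0 N) 2} (hf : f.IsNormalizedEigenform)
    (t : heckeAlgebra N 2 (↑S : Set ℕ)) :
    ((eigenCharInt hNS hf t : integralClosure ℤ ℂ) : ℂ) = eigenChar hNS hf t := rfl

theorem eigenCharInt_T (hNS : ∀ q : ℕ, q.Prime → q ∣ N → q ∈ (↑S : Set ℕ))
    {f : CuspForm (Gamma0 N) 2} (hf : f.IsNormalizedEigenform)
    {ℓ : ℕ} (hℓ : ℓ.Prime) (hℓN : ¬ ℓ ∣ N) (hℓS : ℓ ∉ (↑S : Set ℕ)) :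
    ((eigenCharInt hNS hf (heckeAlgebra.T hℓ hℓN hℓS) : integralClosure ℤ ℂ) : ℂ)
      = qCoeff (⇑f) ℓ := by
  rw [coe_eigenCharInt, eigenChar_T]

/-- the eigenform property for the whole Hecke algebra, in terms of `eigenCharInt` -/
theorem eigenCharInt_smul (hNS : ∀ q : ℕ, q.Prime → q ∣ N → q ∈ (↑S : Set ℕ))
    {f : CuspForm (Gamma0 N) 2} (hf : f.IsNormalizedEigenform)
    (t : heckeAlgebra N 2 (↑S : Set ℕ)) :
    (t : Module.End ℂ (CuspForm (Gamma0 N) 2)) f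
      = ((eigenCharInt hNS hf t : integralClosure ℤ ℂ) : ℂ) • f :=
  eigenChar_smul hNS hf t

/-- every element of the Hecke algebra away from the level is congruent modulo `𝔪` to a rational
integer on an eigenform whose `a_ℓ` are. -/
theorem exists_int_congr (hNS : ∀ q : ℕ, q.Prime → q ∣ N → q ∈ (↑S : Set ℕ))
    {f : CuspForm (Gamma0 N) 2} (hf : f.IsNormalizedEigenform)
    (𝔪 : Ideal (integralClosure ℤ ℂ)) (a : ℕ → ℤ)
    (hcong : ∀ ℓ : ℕ, ℓ.Prime → ¬ ℓ ∣ N → ℓ ∉ (↑S : Set ℕ) →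
      ∃ a' : integralClosure ℤ ℂ, (a' : ℂ) = qCoeff (⇑f) ℓ ∧
        a' - ((a ℓ : ℤ) : integralClosure ℤ ℂ) ∈ 𝔪)
    (t : heckeAlgebra N 2 (↑S : Set ℕ)) :
    ∃ n : ℤ, eigenCharInt hNS hf t - ((n : ℤ) : integralClosure ℤ ℂ) ∈ 𝔪 := by
  obtain ⟨t, ht⟩ := t
  induction ht using Algebra.adjoin_induction with
  | mem y hy =>
    rcases hy with ⟨ℓ, hℓ, hℓN, hℓS, rfl⟩ | ⟨q, hqN, hq, hqS, rfl⟩
    · obtain ⟨a', ha', hmem⟩ := hcong ℓ hℓ hℓN hℓS
      refine ⟨a ℓ, ?_⟩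
      have : eigenCharInt hNS hf ⟨heckeTLin 2 hℓ hℓN, heckeTLin_mem_heckeAlgebra hℓ hℓN hℓS⟩
          = a' := by
        apply Subtype.ext
        rw [ha']
        exact eigenCharInt_T hNS hf hℓ hℓN hℓS
      rw [this]
      exact hmem
    · exact absurd (hNS q hq hqN) hqS
  | algebraMap r =>
    refine ⟨r, ?_⟩
    have : (⟨algebraMap ℤ _ r, Subalgebra.algebraMap_mem _ r⟩ : heckeAlgebra N 2 (↑S : Set ℕ))
        = (r : heckeAlgebra N 2 (↑S : Set ℕ)) := by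
      apply Subtype.ext
      simp
    rw [this, map_intCast, sub_self]
    exact 𝔪.zero_mem
  | add x y hx hy hx' hy' =>
    obtain ⟨n, hn⟩ := hx'
    obtain ⟨m, hm⟩ := hy'
    refine ⟨n + m, ?_⟩
    have : (⟨x + y, Subalgebra.add_mem _ hx hy⟩ : heckeAlgebra N 2 (↑S : Set ℕ))
        = ⟨x, hx⟩ + ⟨y, hy⟩ := rfl
    rw [this, map_add, Int.cast_add]
    have e : eigenCharInt hNS hf ⟨x, hx⟩ + eigenCharInt hNS hf ⟨y, hy⟩
        - (((n : ℤ) : integralClosure ℤ ℂ) + ((m : ℤ) : integralClosure ℤ ℂ))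
        = (eigenCharInt hNS hf ⟨x, hx⟩ - ((n : ℤ) : integralClosure ℤ ℂ))
          + (eigenCharInt hNS hf ⟨y, hy⟩ - ((m : ℤ) : integralClosure ℤ ℂ)) := by ring
    rw [e]
    exact 𝔪.add_mem hn hm
  | mul x y hx hy hx' hy' =>
    obtain ⟨n, hn⟩ := hx'
    obtain ⟨m, hm⟩ := hy'
    refine ⟨n * m, ?_⟩
    have : (⟨x * y, Subalgebra.mul_mem _ hx hy⟩ : heckeAlgebra N 2 (↑S : Set ℕ))
        = ⟨x, hx⟩ * ⟨y, hy⟩ := rfl
    rw [this, map_mul, Int.cast_mul]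
    have e : eigenCharInt hNS hf ⟨x, hx⟩ * eigenCharInt hNS hf ⟨y, hy⟩
        - (((n : ℤ) : integralClosure ℤ ℂ) * ((m : ℤ) : integralClosure ℤ ℂ))
        = (eigenCharInt hNS hf ⟨x, hx⟩ - ((n : ℤ) : integralClosure ℤ ℂ))
            * eigenCharInt hNS hf ⟨y, hy⟩
          + ((n : ℤ) : integralClosure ℤ ℂ)
            * (eigenCharInt hNS hf ⟨y, hy⟩ - ((m : ℤ) : integralClosure ℤ ℂ)) := by ring
    rw [e]
    exact 𝔪.add_mem (𝔪.mul_mem_right _ hn) (𝔪.mul_mem_left _ hm)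

/-! ### Rational integers modulo `𝔪` -/

/-- a rational integer lies in a proper ideal containing the prime `p` iff `p` divides it -/
theorem intCast_mem_iff {p : ℕ} (hp : p.Prime) {𝔪 : Ideal (integralClosure ℤ ℂ)} (h𝔪 : 𝔪 ≠ ⊤)
    (hp𝔪 : (p : integralClosure ℤ ℂ) ∈ 𝔪) (n : ℤ) :
    ((n : ℤ) : integralClosure ℤ ℂ) ∈ 𝔪 ↔ (p : ℤ) ∣ n := by
  constructor
  · intro hn
    by_contra hdvd
    have hcop : IsCoprime (p : ℤ) n := by
      rw [Int.isCoprime_iff_gcd_eq_one]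
      have hp' : Prime (p : ℤ) := Nat.prime_iff_prime_int.mp hp
      exact Int.isCoprime_iff_gcd_eq_one.mp ((Prime.coprime_iff_not_dvd hp').mpr hdvd)
    obtain ⟨u, v, huv⟩ := hcop
    apply h𝔪
    rw [Ideal.eq_top_iff_one]
    have h1 : (1 : integralClosure ℤ ℂ)
        = ((u : ℤ) : integralClosure ℤ ℂ) * (p : integralClosure ℤ ℂ)
          + ((v : ℤ) : integralClosure ℤ ℂ) * ((n : ℤ) : integralClosure ℤ ℂ) := by
      have := congrArg (fun z : ℤ => ((z : ℤ) : integralClosure ℤ ℂ)) huv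
      simp only [Int.cast_add, Int.cast_mul, Int.cast_natCast, Int.cast_one] at this
      exact this.symm
    rw [h1]
    exact 𝔪.add_mem (𝔪.mul_mem_left _ hp𝔪) (𝔪.mul_mem_left _ hn)
  · rintro ⟨k, rfl⟩
    rw [Int.cast_mul, Int.cast_natCast]
    exact 𝔪.mul_mem_right _ hp𝔪

/-- two rational integers congruent modulo `𝔪` to the same algebraic integer agree in `ZMod p` -/
theorem zmod_eq_of_congr {p : ℕ} (hp : p.Prime) {𝔪 : Ideal (integralClosure ℤ ℂ)} (h𝔪 : 𝔪 ≠ ⊤)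
    (hp𝔪 : (p : integralClosure ℤ ℂ) ∈ 𝔪) {x : integralClosure ℤ ℂ} {n n' : ℤ}
    (hn : x - ((n : ℤ) : integralClosure ℤ ℂ) ∈ 𝔪)
    (hn' : x - ((n' : ℤ) : integralClosure ℤ ℂ) ∈ 𝔪) :
    ((n : ℤ) : ZMod p) = ((n' : ℤ) : ZMod p) := by
  have h : (((n - n' : ℤ) : ℤ) : integralClosure ℤ ℂ) ∈ 𝔪 := by
    have e : (((n - n' : ℤ) : ℤ) : integralClosure ℤ ℂ)
        = (x - ((n' : ℤ) : integralClosure ℤ ℂ)) - (x - ((n : ℤ) : integralClosure ℤ ℂ)) := by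
      rw [Int.cast_sub]
      ring
    rw [e]
    exact 𝔪.sub_mem hn' hn
  have hd := (intCast_mem_iff hp h𝔪 hp𝔪 _).mp h
  exact (ZMod.intCast_eq_intCast_iff_dvd_sub n' n p).mpr hd |>.symm

/-! ### The character `θ` -/

section theta

variable (hNS : ∀ q : ℕ, q.Prime → q ∣ N → q ∈ (↑S : Set ℕ))
  {f : CuspForm (Gamma0 N) 2} (hf : f.IsNormalizedEigenform)
  {p : ℕ} (hp : p.Prime) {𝔪 : Ideal (integralClosure ℤ ℂ)} (h𝔪 : 𝔪 ≠ ⊤)
  (hp𝔪 : (p : integralClosure ℤ ℂ) ∈ 𝔪) (a : ℕ → ℤ)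
  (hcong : ∀ ℓ : ℕ, ℓ.Prime → ¬ ℓ ∣ N → ℓ ∉ (↑S : Set ℕ) →
    ∃ a' : integralClosure ℤ ℂ, (a' : ℂ) = qCoeff (⇑f) ℓ ∧
      a' - ((a ℓ : ℤ) : integralClosure ℤ ℂ) ∈ 𝔪)

/-- the underlying function of `θ` -/
def thetaFun (t : heckeAlgebra N 2 (↑S : Set ℕ)) : ZMod p :=
  ((Classical.choose (exists_int_congr hNS hf 𝔪 a hcong t) : ℤ) : ZMod p)

include hp h𝔪 hp𝔪 in
/-- the characterisation of `thetaFun` -/
theorem thetaFun_eq {t : heckeAlgebra N 2 (↑S : Set ℕ)} {n : ℤ}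
    (hn : eigenCharInt hNS hf t - ((n : ℤ) : integralClosure ℤ ℂ) ∈ 𝔪) :
    thetaFun hNS hf a hcong t = ((n : ℤ) : ZMod p) :=
  zmod_eq_of_congr hp h𝔪 hp𝔪 (Classical.choose_spec (exists_int_congr hNS hf 𝔪 a hcong t)) hn

theorem thetaFun_spec (t : heckeAlgebra N 2 (↑S : Set ℕ)) :
    ∃ n : ℤ, thetaFun (p := p) hNS hf a hcong t = ((n : ℤ) : ZMod p) ∧
      eigenCharInt hNS hf t - ((n : ℤ) : integralClosure ℤ ℂ) ∈ 𝔪 :=
  ⟨_, rfl, Classical.choose_spec (exists_int_congr hNS hf 𝔪 a hcong t)⟩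

/-- **(A1)** the mod `p` eigencharacter. -/
def theta : heckeAlgebra N 2 (↑S : Set ℕ) →+* ZMod p where
  toFun := thetaFun hNS hf a hcong
  map_one' := by
    have h : eigenCharInt hNS hf (1 : heckeAlgebra N 2 (↑S : Set ℕ))
        - ((1 : ℤ) : integralClosure ℤ ℂ) ∈ 𝔪 := by
      rw [map_one, Int.cast_one, sub_self]
      exact 𝔪.zero_mem
    rw [thetaFun_eq hNS hf hp h𝔪 hp𝔪 a hcong h, Int.cast_one]
  map_zero' := by
    have h : eigenCharInt hNS hf (0 : heckeAlgebra N 2 (↑S : Set ℕ))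
        - ((0 : ℤ) : integralClosure ℤ ℂ) ∈ 𝔪 := by
      rw [map_zero, Int.cast_zero, sub_self]
      exact 𝔪.zero_mem
    rw [thetaFun_eq hNS hf hp h𝔪 hp𝔪 a hcong h, Int.cast_zero]
  map_add' x y := by
    obtain ⟨n, hn, hn'⟩ := thetaFun_spec (p := p) hNS hf a hcong x
    obtain ⟨m, hm, hm'⟩ := thetaFun_spec (p := p) hNS hf a hcong y
    have h : eigenCharInt hNS hf (x + y) - (((n + m : ℤ) : ℤ) : integralClosure ℤ ℂ) ∈ 𝔪 := by
      have e : eigenCharInt hNS hf (x + y) - (((n + m : ℤ) : ℤ) : integralClosure ℤ ℂ)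
          = (eigenCharInt hNS hf x - ((n : ℤ) : integralClosure ℤ ℂ))
            + (eigenCharInt hNS hf y - ((m : ℤ) : integralClosure ℤ ℂ)) := by
        rw [map_add, Int.cast_add]
        ring
      rw [e]
      exact 𝔪.add_mem hn' hm'
    rw [thetaFun_eq hNS hf hp h𝔪 hp𝔪 a hcong h, hn, hm, Int.cast_add]
  map_mul' x y := by
    obtain ⟨n, hn, hn'⟩ := thetaFun_spec (p := p) hNS hf a hcong x
    obtain ⟨m, hm, hm'⟩ := thetaFun_spec (p := p) hNS hf a hcong y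
    have h : eigenCharInt hNS hf (x * y) - (((n * m : ℤ) : ℤ) : integralClosure ℤ ℂ) ∈ 𝔪 := by
      have e : eigenCharInt hNS hf (x * y) - (((n * m : ℤ) : ℤ) : integralClosure ℤ ℂ)
          = (eigenCharInt hNS hf x - ((n : ℤ) : integralClosure ℤ ℂ)) * eigenCharInt hNS hf y
            + ((n : ℤ) : integralClosure ℤ ℂ)
              * (eigenCharInt hNS hf y - ((m : ℤ) : integralClosure ℤ ℂ)) := by
        rw [map_mul, Int.cast_mul]
        ring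
      rw [e]
      exact 𝔪.add_mem (𝔪.mul_mem_right _ hn') (𝔪.mul_mem_left _ hm')
    rw [thetaFun_eq hNS hf hp h𝔪 hp𝔪 a hcong h, hn, hm, Int.cast_mul]

/-- `θ t = n` as soon as the eigenvalue of `t` is congruent to the rational integer `n`. -/
theorem theta_eq {t : heckeAlgebra N 2 (↑S : Set ℕ)} {n : ℤ}
    (hn : eigenCharInt hNS hf t - ((n : ℤ) : integralClosure ℤ ℂ) ∈ 𝔪) :
    theta hNS hf hp h𝔪 hp𝔪 a hcong t = ((n : ℤ) : ZMod p) :=
  thetaFun_eq hNS hf hp h𝔪 hp𝔪 a hcong hn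

/-- `θ` is the reduction modulo `𝔪` of the eigencharacter of `f`. -/
theorem theta_spec (t : heckeAlgebra N 2 (↑S : Set ℕ)) :
    ∃ n : ℤ, theta hNS hf hp h𝔪 hp𝔪 a hcong t = ((n : ℤ) : ZMod p) ∧
      eigenCharInt hNS hf t - ((n : ℤ) : integralClosure ℤ ℂ) ∈ 𝔪 :=
  thetaFun_spec hNS hf a hcong t

/-- `θ (T ℓ) = a ℓ`. -/
theorem theta_T {ℓ : ℕ} (hℓ : ℓ.Prime) (hℓN : ¬ ℓ ∣ N) (hℓS : ℓ ∉ (↑S : Set ℕ)) :
    theta hNS hf hp h𝔪 hp𝔪 a hcong (heckeAlgebra.T hℓ hℓN hℓS) = ((a ℓ : ℤ) : ZMod p) := by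
  obtain ⟨a', ha', hmem⟩ := hcong ℓ hℓ hℓN hℓS
  apply theta_eq
  have : eigenCharInt hNS hf (heckeAlgebra.T hℓ hℓN hℓS) = a' := by
    apply Subtype.ext
    rw [ha']
    exact eigenCharInt_T hNS hf hℓ hℓN hℓS
  rw [this]
  exact hmem

end theta

end Fermat.Agent.S40x.A1.Theta
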