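import Mathlib
import Fermat.Agent.S40x.A1.Theta
import Fermat.Agent.S13.Global
import Fermat.Prelude.Def_FLTPrelim_ModularRep

/-!
# P-S44/S40, block A, leaf (A1): `θ` for an elliptic curve (helper89)

`levelSet N W = N.primeFactors ∪ |Δ(W)|.primeFactors` is the finite set `S` of primes used for the
Hecke algebra `heckeAlgebra N 2 S` and the torsion data `TorsionHeckeData p N S` in the proofs of
S40 and S44.  It contains the primes of `N` (hence `p` when `p ∣ N`), and a prime outside it is a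
prime of good reduction of `W` not dividing `N`.

* `exists_theta_of_curve` : the character `θ : 𝕋_S(N) →+* ZMod p` with `θ (T ℓ) = a_ℓ(W)` from the
  congruence hypothesis in the exact shape of the bodies of
  `WeierstrassCurve.IsResiduallyModularOfLevel` and `FreyPackage.ModularRepOfLevel`;
* `exists_theta_of_isResiduallyModularOfLevel` (S40), `exists_theta_of_modularRepOfLevel` (S44).
-/

set_option autoImplicit false

noncomputable section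

namespace Fermat.Agent.S40x.A1.Theta

open CuspForm ModularFormClass CongruenceSubgroup WeierstrassCurve

/-- the finite set of primes `S` of the proofs of S40 / S44 -/
def levelSet (N : ℕ) (W : WeierstrassCurve ℤ) : Finset ℕ :=
  N.primeFactors ∪ W.Δ.natAbs.primeFactors

theorem mem_levelSet_of_dvd {N : ℕ} (hN : N ≠ 0) (W : WeierstrassCurve ℤ) {q : ℕ} (hq : q.Prime)
    (hqN : q ∣ N) : q ∈ levelSet N W :=
  Finset.mem_union_left _ (Nat.mem_primeFactors.mpr ⟨hq, hqN, hN⟩)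

/-- the hypothesis `hNS` of the landed torsion data / eigencharacter -/
theorem levelSet_primes (N : ℕ) [NeZero N] (W : WeierstrassCurve ℤ) :
    ∀ q : ℕ, q.Prime → q ∣ N → q ∈ (↑(levelSet N W) : Set ℕ) := fun _ hq hqN =>
  Finset.mem_coe.mpr (mem_levelSet_of_dvd (NeZero.ne N) W hq hqN)

theorem levelSet_primes' (N : ℕ) [NeZero N] (W : WeierstrassCurve ℤ) :
    ∀ q : ℕ, q.Prime → q ∣ N → q ∈ levelSet N W := fun _ hq hqN =>
  mem_levelSet_of_dvd (NeZero.ne N) W hq hqN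

theorem not_dvd_of_notMem_levelSet {N : ℕ} (hN : N ≠ 0) {W : WeierstrassCurve ℤ} {ℓ : ℕ}
    (hℓ : ℓ.Prime) (h : ℓ ∉ levelSet N W) : ¬ ℓ ∣ N := fun hd =>
  h (mem_levelSet_of_dvd hN W hℓ hd)

theorem isGoodPrimeFor_of_notMem_levelSet {N : ℕ} {W : WeierstrassCurve ℤ} (hΔ : W.Δ ≠ 0) {ℓ : ℕ}
    (hℓ : ℓ.Prime) (h : ℓ ∉ levelSet N W) : W.IsGoodPrimeFor ℓ := by
  intro hd
  apply h
  refine Finset.mem_union_right _ (Nat.mem_primeFactors.mpr ⟨hℓ, ?_, ?_⟩)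
  · exact Int.natCast_dvd.mp hd
  · exact Int.natAbs_ne_zero.mpr hΔ

theorem ne_of_notMem_levelSet {N : ℕ} (hN : N ≠ 0) {W : WeierstrassCurve ℤ} {p : ℕ} (hp : p.Prime)
    (hpN : p ∣ N) {ℓ : ℕ} (h : ℓ ∉ levelSet N W) : ℓ ≠ p := by
  rintro rfl
  exact h (mem_levelSet_of_dvd hN W hp hpN)

/-- a prime is outside `levelSet N W` iff it does not divide `N` and is good for `W` -/
theorem notMem_levelSet_iff {N : ℕ} (hN : N ≠ 0) {W : WeierstrassCurve ℤ} (hΔ : W.Δ ≠ 0) {ℓ : ℕ}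
    (hℓ : ℓ.Prime) : ℓ ∉ levelSet N W ↔ ¬ ℓ ∣ N ∧ W.IsGoodPrimeFor ℓ := by
  constructor
  · exact fun h => ⟨not_dvd_of_notMem_levelSet hN hℓ h, isGoodPrimeFor_of_notMem_levelSet hΔ hℓ h⟩
  · rintro ⟨h1, h2⟩ hmem
    rcases Finset.mem_union.mp hmem with h | h
    · exact h1 (Nat.mem_primeFactors.mp h).2.1
    · exact h2 (Int.natCast_dvd.mpr (Nat.mem_primeFactors.mp h).2.1)

/-- **(A1)** for a Weierstrass curve: the shape common to S40 and S44. -/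
theorem exists_theta_of_curve {N : ℕ} [NeZero N] {p : ℕ} (hp : p.Prime) (hpN : p ∣ N)
    (W : WeierstrassCurve ℤ) (hΔ : W.Δ ≠ 0)
    {f : CuspForm (Gamma0 N) 2} (hf : f.IsNormalizedEigenform)
    {𝔪 : Ideal (integralClosure ℤ ℂ)} (h𝔪 : 𝔪.IsMaximal)
    (hp𝔪 : (p : integralClosure ℤ ℂ) ∈ 𝔪)
    (hcong : ∀ ℓ : ℕ, ℓ.Prime → W.IsGoodPrimeFor ℓ → ¬ ℓ ∣ N → ℓ ≠ p →
      ∃ a : integralClosure ℤ ℂ, (a : ℂ) = qCoeff (⇑f) ℓ ∧
        a - ((W.apOfModel ℓ : ℤ) : integralClosure ℤ ℂ) ∈ 𝔪) :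
    ∃ θ : heckeAlgebra N 2 (↑(levelSet N W) : Set ℕ) →+* ZMod p,
      (∀ (ℓ : ℕ) (hℓ : ℓ.Prime) (hℓN : ¬ ℓ ∣ N) (hℓS : ℓ ∉ (↑(levelSet N W) : Set ℕ)),
        θ (heckeAlgebra.T hℓ hℓN hℓS) = ((W.apOfModel ℓ : ℤ) : ZMod p)) ∧
      ∀ t : heckeAlgebra N 2 (↑(levelSet N W) : Set ℕ), ∃ n : ℤ, θ t = ((n : ℤ) : ZMod p) ∧
        eigenCharInt (levelSet_primes N W) hf t - ((n : ℤ) : integralClosure ℤ ℂ) ∈ 𝔪 := by
  have hcong' : ∀ ℓ : ℕ, ℓ.Prime → ¬ ℓ ∣ N → ℓ ∉ (↑(levelSet N W) : Set ℕ) →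
      ∃ a' : integralClosure ℤ ℂ, (a' : ℂ) = qCoeff (⇑f) ℓ ∧
        a' - (((fun ℓ => W.apOfModel ℓ) ℓ : ℤ) : integralClosure ℤ ℂ) ∈ 𝔪 := by
    intro ℓ hℓ hℓN hℓS
    have hℓS' : ℓ ∉ levelSet N W := fun h => hℓS (Finset.mem_coe.mpr h)
    exact hcong ℓ hℓ (isGoodPrimeFor_of_notMem_levelSet hΔ hℓ hℓS') hℓN
      (ne_of_notMem_levelSet (NeZero.ne N) hp hpN hℓS')
  refine ⟨theta (levelSet_primes N W) hf hp h𝔪.ne_top hp𝔪 (fun ℓ => W.apOfModel ℓ) hcong',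
    fun ℓ hℓ hℓN hℓS => ?_, fun t => ?_⟩
  · exact theta_T (levelSet_primes N W) hf hp h𝔪.ne_top hp𝔪 _ hcong' hℓ hℓN hℓS
  · exact theta_spec (levelSet_primes N W) hf hp h𝔪.ne_top hp𝔪 _ hcong' t

/-- **(A1) for S40.** -/
theorem exists_theta_of_isResiduallyModularOfLevel (W : WeierstrassCurve ℤ) (hΔ : W.Δ ≠ 0)
    {p : ℕ} (hp : p.Prime) {M : ℕ} [NeZero M] (hpM : p ∣ M)
    (hmod : W.IsResiduallyModularOfLevel p M) :
    ∃ θ : heckeAlgebra M 2 (↑(levelSet M W) : Set ℕ) →+* ZMod p,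
      ∀ (ℓ : ℕ) (hℓ : ℓ.Prime) (hℓN : ¬ ℓ ∣ M) (hℓS : ℓ ∉ (↑(levelSet M W) : Set ℕ)),
        θ (heckeAlgebra.T hℓ hℓN hℓS) = ((W.apOfModel ℓ : ℤ) : ZMod p) := by
  obtain ⟨f, 𝔪, hf, h𝔪, hp𝔪, hcong⟩ := hmod
  obtain ⟨θ, hθ, -⟩ := exists_theta_of_curve hp hpM W hΔ hf h𝔪 hp𝔪 hcong
  exact ⟨θ, hθ⟩

/-- the discriminant of an integral model of the Frey curve is nonzero -/
theorem Δ_ne_zero_of_isIntegralModelOf_freyCurve (P : FreyPackage) {W : WeierstrassCurve ℤ}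
    (hW : W.IsIntegralModelOf P.freyCurve) : W.Δ ≠ 0 := by
  obtain ⟨C, hC⟩ := hW
  intro h0
  have h1 : (W.map (Int.castRingHom ℚ)).Δ = 0 := by
    rw [WeierstrassCurve.map_Δ, h0, _root_.map_zero]
  rw [← hC, WeierstrassCurve.variableChange_Δ] at h1
  have h2 : P.freyCurve.Δ ≠ 0 := Fermat.Agent.S13.freyCurve_Δ_ne_zero P
  have h3 : ((C.u⁻¹ : ℚˣ) : ℚ) ^ 12 ≠ 0 := pow_ne_zero _ (Units.ne_zero _)
  exact mul_ne_zero h3 h2 h1

/-- **(A1) for S44**: the data of `P.ModularRepOfLevel N` together with `θ`. -/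
theorem exists_theta_of_modularRepOfLevel (P : FreyPackage) {N : ℕ} [NeZero N] (hpN : P.p ∣ N)
    (hmod : P.ModularRepOfLevel N) :
    ∃ W : WeierstrassCurve ℤ, W.IsIntegralModelOf P.freyCurve ∧ W.Δ ≠ 0 ∧
      ∃ θ : heckeAlgebra N 2 (↑(levelSet N W) : Set ℕ) →+* ZMod P.p,
        ∀ (ℓ : ℕ) (hℓ : ℓ.Prime) (hℓN : ¬ ℓ ∣ N) (hℓS : ℓ ∉ (↑(levelSet N W) : Set ℕ)),
          θ (heckeAlgebra.T hℓ hℓN hℓS) = ((W.apOfModel ℓ : ℤ) : ZMod P.p) := by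
  obtain ⟨f, W, 𝔪, hf, hW, h𝔪, hp𝔪, hcong⟩ := hmod
  have hΔ := Δ_ne_zero_of_isIntegralModelOf_freyCurve P hW
  obtain ⟨θ, hθ, -⟩ := exists_theta_of_curve P.pp hpN W hΔ hf h𝔪 hp𝔪 hcong
  exact ⟨W, hW, hΔ, θ, hθ⟩

end Fermat.Agent.S40x.A1.Theta
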