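import Mathlib
import Fermat.Agent.S13.Global
import Fermat.Agent.S40x.A.S44SkeletonV2

/-!
# P-S44/S40, block A, leaf (A-2S): every integral model of the Frey curve is bad at `2` (helper89)

`leaf2S : S44SkeletonV2.Leaf2S`, i.e. `∀ P W, W.IsIntegralModelOf P.freyCurve → (2 : ℤ) ∣ W.Δ`.

Proof.  If `C • E = W_ℚ` then `c₄(W) ^ 3 * Δ(E) = c₄(E) ^ 3 * Δ(W)` in `ℚ` (`c₄ ↦ u⁻⁴ c₄`,
`Δ ↦ u⁻¹² Δ`).  For the Frey curve `c₄(E) = A² + A B + B²` (`A = a ^ p` odd, `B = b ^ p` even) and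
`Δ(E) = (a b c) ^ (2 p) / 2 ^ 8`, so in `ℤ`:
`c₄(W) ^ 3 * (a b c) ^ (2 p) = 2 ^ 8 * c₄(E) ^ 3 * Δ(W)`; the left side is divisible by
`2 ^ (2 p)`, `2 p ≥ 10`, and `c₄(E)` is odd, hence `4 ∣ Δ(W)`.
-/

set_option autoImplicit false

namespace Fermat.Agent.S40x.A1.TwoBad

open WeierstrassCurve

/-- `c₄` of the Frey curve. -/
theorem freyCurve_c₄ (P : FreyPackage) :
    P.freyCurve.c₄ = (P.a : ℚ) ^ (2 * P.p) + (P.a : ℚ) ^ P.p * (P.b : ℚ) ^ P.p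
      + (P.b : ℚ) ^ (2 * P.p) := by
  simp only [WeierstrassCurve.c₄, WeierstrassCurve.b₂, WeierstrassCurve.b₄,
    FreyPackage.freyCurve]
  rw [pow_mul', pow_mul']
  ring

/-- the basic relation between the invariants of the Frey curve and of an integral model. -/
theorem c₄_pow_mul_Δ (P : FreyPackage) {W : WeierstrassCurve ℤ}
    (hW : W.IsIntegralModelOf P.freyCurve) :
    (W.c₄ : ℚ) ^ 3 * P.freyCurve.Δ = P.freyCurve.c₄ ^ 3 * (W.Δ : ℚ) := by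
  obtain ⟨C, hC⟩ := hW
  have hc : ((W.map (Int.castRingHom ℚ)).c₄ : ℚ) = (W.c₄ : ℚ) := by
    rw [WeierstrassCurve.map_c₄]; rfl
  have hd : ((W.map (Int.castRingHom ℚ)).Δ : ℚ) = (W.Δ : ℚ) := by
    rw [WeierstrassCurve.map_Δ]; rfl
  rw [← hc, ← hd, ← hC, WeierstrassCurve.variableChange_c₄, WeierstrassCurve.variableChange_Δ]
  have hu : ((C.u⁻¹ : ℚˣ) : ℚ) ≠ 0 := Units.ne_zero _
  ring

/-- the same relation in `ℤ`. -/
theorem c₄_pow_mul_abc (P : FreyPackage) {W : WeierstrassCurve ℤ}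
    (hW : W.IsIntegralModelOf P.freyCurve) :
    W.c₄ ^ 3 * (P.a * P.b * P.c) ^ (2 * P.p) =
      2 ^ 8 * (P.a ^ (2 * P.p) + P.a ^ P.p * P.b ^ P.p + P.b ^ (2 * P.p)) ^ 3 * W.Δ := by
  have h := c₄_pow_mul_Δ P hW
  rw [Fermat.Agent.S13.freyCurve_Δ, freyCurve_c₄] at h
  have h2 : (W.c₄ : ℚ) ^ 3 * ((P.a : ℚ) * P.b * P.c) ^ (2 * P.p) =
      2 ^ 8 * ((P.a : ℚ) ^ (2 * P.p) + (P.a : ℚ) ^ P.p * (P.b : ℚ) ^ P.p
        + (P.b : ℚ) ^ (2 * P.p)) ^ 3 * (W.Δ : ℚ) := by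
    have h8 : (2 : ℚ) ^ 8 ≠ 0 := by norm_num
    field_simp at h
    linarith
  exact_mod_cast h2

theorem two_dvd_b (P : FreyPackage) : (2 : ℤ) ∣ P.b :=
  (ZMod.intCast_zmod_eq_zero_iff_dvd P.b 2).1 P.hb2

theorem not_two_dvd_a (P : FreyPackage) : ¬ (2 : ℤ) ∣ P.a := by
  intro h
  have h4 := P.ha4
  obtain ⟨k, hk⟩ := h
  rw [hk] at h4
  have h5 : ((2 * k : ℤ) : ZMod 4) = 3 := h4
  push_cast at h5
  have : ∀ x : ZMod 4, (2 : ZMod 4) * x ≠ 3 := by decide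
  exact this _ h5

/-- `c₄` of the Frey curve is odd. -/
theorem not_two_dvd_c₄ (P : FreyPackage) :
    ¬ (2 : ℤ) ∣ P.a ^ (2 * P.p) + P.a ^ P.p * P.b ^ P.p + P.b ^ (2 * P.p) := by
  intro h
  have hb : (2 : ℤ) ∣ P.b := two_dvd_b P
  have hp : P.p ≠ 0 := P.hp0
  have hb1 : (2 : ℤ) ∣ P.b ^ P.p := dvd_pow hb hp
  have hb2 : (2 : ℤ) ∣ P.b ^ (2 * P.p) := dvd_pow hb (by omega)
  have h1 : (2 : ℤ) ∣ P.a ^ (2 * P.p) := by
    have h3 : (2 : ℤ) ∣ P.a ^ P.p * P.b ^ P.p + P.b ^ (2 * P.p) :=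
      dvd_add (Dvd.dvd.mul_left hb1 _) hb2
    have h4 : P.a ^ (2 * P.p) =
        (P.a ^ (2 * P.p) + P.a ^ P.p * P.b ^ P.p + P.b ^ (2 * P.p))
          - (P.a ^ P.p * P.b ^ P.p + P.b ^ (2 * P.p)) := by ring
    rw [h4]
    exact dvd_sub h h3
  exact not_two_dvd_a P (Int.prime_two.dvd_of_dvd_pow h1)

/-- **(A-2S)** every integral model of the Frey curve has bad reduction at `2`
(indeed `4 ∣ Δ`). -/
theorem four_dvd_Δ (P : FreyPackage) {W : WeierstrassCurve ℤ}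
    (hW : W.IsIntegralModelOf P.freyCurve) : (4 : ℤ) ∣ W.Δ := by
  have h := c₄_pow_mul_abc P hW
  set c : ℤ := P.a ^ (2 * P.p) + P.a ^ P.p * P.b ^ P.p + P.b ^ (2 * P.p) with hc
  have hodd : ¬ (2 : ℤ) ∣ c := not_two_dvd_c₄ P
  -- `2 ^ 10` divides the left-hand side
  have h10 : (2 : ℤ) ^ 10 ∣ (P.a * P.b * P.c) ^ (2 * P.p) := by
    have h2 : (2 : ℤ) ∣ P.a * P.b * P.c := P.two_dvd_abc
    have h3 : (2 : ℤ) ^ (2 * P.p) ∣ (P.a * P.b * P.c) ^ (2 * P.p) := pow_dvd_pow_of_dvd h2 _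
    have h4 : (2 : ℤ) ^ 10 ∣ (2 : ℤ) ^ (2 * P.p) := pow_dvd_pow _ (by have := P.hp5; omega)
    exact h4.trans h3
  have h11 : (2 : ℤ) ^ 10 ∣ 2 ^ 8 * c ^ 3 * W.Δ := by
    rw [← h]
    exact Dvd.dvd.mul_left h10 _
  have h12 : (4 : ℤ) ∣ c ^ 3 * W.Δ := by
    obtain ⟨m, hm⟩ := h11
    refine ⟨m, ?_⟩
    have : (2 : ℤ) ^ 8 * (c ^ 3 * W.Δ) = 2 ^ 8 * (4 * m) := by
      rw [← mul_assoc, hm]; ring
    exact mul_left_cancel₀ (by norm_num) this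
  -- `c ^ 3` is odd, hence coprime to `4`
  have hcop : IsCoprime (4 : ℤ) (c ^ 3) := by
    have h2c : IsCoprime (2 : ℤ) c :=
      (Int.prime_two.coprime_iff_not_dvd).mpr hodd
    have : IsCoprime ((2 : ℤ) ^ 2) (c ^ 3) := h2c.pow
    norm_num at this
    exact this
  exact hcop.dvd_of_dvd_mul_left h12

theorem two_dvd_Δ (P : FreyPackage) {W : WeierstrassCurve ℤ}
    (hW : W.IsIntegralModelOf P.freyCurve) : (2 : ℤ) ∣ W.Δ :=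
  (by norm_num : (2 : ℤ) ∣ 4).trans (four_dvd_Δ P hW)

/-- the leaf in the shape of `S44SkeletonV2`. -/
theorem leaf2S : Fermat.Agent.S40x.A.S44SkeletonV2.Leaf2S :=
  fun P _ hW => two_dvd_Δ P hW

end Fermat.Agent.S40x.A1.TwoBad
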