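import Mathlib

/-!
# P-S44/S40, block A: complex conjugation in `Gal(ℚ̄/ℚ)` (helper89)

`cc : AlgebraicClosure ℚ ≃ₐ[ℚ] AlgebraicClosure ℚ` is the restriction of complex conjugation along a
fixed embedding `emb : ℚ̄ →ₐ[ℚ] ℂ`.

* `cc_mul_cc : cc * cc = 1`;
* `cc_rootOfUnity : z ^ n = 1 → cc z = z⁻¹` (`0 < n`);
* `cc_ne_one`.

Used for the oddness of the mod `p` representation of an elliptic curve (`det ρ(cc) = -1`), which
turns irreducibility into absolute irreducibility (`S40x/A/AbsIrr`).
-/

set_option autoImplicit false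

namespace Fermat.Agent.S40x.A1.ComplexConj

local notation "Qbar" => AlgebraicClosure ℚ
local notation "Γℚ" => (AlgebraicClosure ℚ ≃ₐ[ℚ] AlgebraicClosure ℚ)

/-- `ℚ̄ / ℚ` is algebraic (for the `ℚ`-algebra structure used in `Γℚ`). -/
theorem isAlgebraic_Qbar : Algebra.IsAlgebraic ℚ Qbar := AlgebraicClosure.isAlgebraic ℚ

/-- `ℚ̄ / ℚ` is normal (for the `ℚ`-algebra structure used in `Γℚ`). -/
theorem normal_Qbar : Normal ℚ Qbar := by
  have h : (DivisionRing.toRatAlgebra : Algebra ℚ Qbar) = AlgebraicClosure.instAlgebra ℚ :=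
    Subsingleton.elim _ _
  rw [h]
  infer_instance

attribute [local instance] isAlgebraic_Qbar normal_Qbar

/-- a fixed embedding of `ℚ̄` into `ℂ` -/
noncomputable def emb : Qbar →ₐ[ℚ] ℂ := IsAlgClosed.lift

theorem emb_injective : Function.Injective emb := emb.toRingHom.injective

/-- `ℂ` as a `ℚ̄`-algebra through `emb` (local instance in this file only) -/
@[reducible] noncomputable def algQbarComplex : Algebra Qbar ℂ := emb.toRingHom.toAlgebra

attribute [local instance] algQbarComplex

local instance : IsScalarTower ℚ Qbar ℂ :=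
  IsScalarTower.of_algebraMap_eq (fun x => (emb.commutes x).symm)

/-- complex conjugation as a `ℚ`-algebra automorphism of `ℂ` -/
noncomputable def conjQ : ℂ ≃ₐ[ℚ] ℂ := Complex.conjAe.restrictScalars ℚ

theorem conjQ_apply (z : ℂ) : conjQ z = (starRingEnd ℂ) z := rfl

/-- **complex conjugation** in the absolute Galois group of `ℚ` -/
noncomputable def cc : Γℚ := conjQ.restrictNormal Qbar

theorem emb_cc (x : Qbar) : emb (cc x) = (starRingEnd ℂ) (emb x) :=
  AlgEquiv.restrictNormal_commutes conjQ Qbar x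

theorem cc_cc (x : Qbar) : cc (cc x) = x := by
  apply emb_injective
  rw [emb_cc, emb_cc, Complex.conj_conj]

theorem cc_mul_cc : cc * cc = 1 := by
  apply AlgEquiv.ext
  intro x
  exact cc_cc x

/-- complex conjugation inverts the roots of unity -/
theorem cc_rootOfUnity {z : Qbar} {n : ℕ} (hn : 0 < n) (hz : z ^ n = 1) : cc z = z⁻¹ := by
  apply emb_injective
  rw [emb_cc, map_inv₀]
  have h1 : emb z ^ n = 1 := by rw [← map_pow, hz, map_one]
  have hnorm : ‖emb z‖ = 1 := Complex.norm_eq_one_of_pow_eq_one h1 hn.ne'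
  exact (Complex.inv_eq_conj hnorm).symm

/-- complex conjugation does not fix a primitive `n`-th root of unity, `n ≥ 3` -/
theorem cc_ne_self_of_isPrimitiveRoot {z : Qbar} {n : ℕ} (hn : 3 ≤ n) (hz : IsPrimitiveRoot z n) :
    cc z ≠ z := by
  intro h
  rw [cc_rootOfUnity (by omega) hz.pow_eq_one] at h
  have hz0 : z ≠ 0 := hz.ne_zero (by omega)
  have h2 : z ^ 2 = 1 := by
    rw [pow_two]
    nth_rewrite 1 [← h]
    exact inv_mul_cancel₀ hz0
  have := hz.dvd_of_pow_eq_one 2 h2
  have := Nat.le_of_dvd (by norm_num) this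
  omega

theorem cc_ne_one : cc ≠ 1 := by
  intro h
  obtain ⟨z, hz⟩ := HasEnoughRootsOfUnity.exists_primitiveRoot Qbar 3
  exact cc_ne_self_of_isPrimitiveRoot (le_refl 3) hz (by rw [h]; rfl)

end Fermat.Agent.S40x.A1.ComplexConj
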