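import Mathlib

/-!
# P-S44/S40, block A: an eigenbasis of an odd involution and irreducibility (helper89)

`k` a field with `2 ≠ 0`, `V` a two-dimensional `k`-vector space, `r : G →* End_k(V)` a representation
without stable line, `c : G` with `c * c = 1` and `det r(c) = -1` (complex conjugation).  Then
there is a basis `b` of `V` with

* `toMatrix b b (r c) = !![1, 0; 0, -1]`,
* some `r g` has a nonzero `(0,1)` entry, some `r g` a nonzero `(1,0)` entry,

i.e. the hypotheses of `S40x/A/AbsIrr.surjective_rhoAlg_of_diag` (irreducible + odd ⟹ absolutely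
irreducible).  Mathlib only.
-/

set_option autoImplicit false

namespace Fermat.Agent.S40x.A1.OddBasis

open Module

variable {k : Type*} [Field k] {V : Type*} [AddCommGroup V] [Module k V]

/-- an involution of determinant `-1` on a plane has the eigenvalue `1` -/
theorem exists_fixed (h2 : (2 : k) ≠ 0) (hV : finrank k V = 2) (f : Module.End k V)
    (hf : f * f = 1) (hdet : LinearMap.det f = -1) : ∃ u : V, u ≠ 0 ∧ f u = u := by
  by_contra hcon
  push Not at hcon
  -- then `f = -1`
  have hneg : f = -1 := by
    apply LinearMap.ext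
    intro v
    have hfix : f (v + f v) = v + f v := by
      rw [map_add, ← Module.End.mul_apply, hf, Module.End.one_apply, add_comm]
    have h0 : v + f v = 0 := by
      by_contra hne
      exact hcon _ hne hfix
    rw [LinearMap.neg_apply, Module.End.one_apply]
    exact (neg_eq_of_add_eq_zero_right h0).symm
  have hd : LinearMap.det f = 1 := by
    have : f = (-1 : k) • (1 : Module.End k V) := by rw [hneg, neg_smul, one_smul]
    rw [this, LinearMap.det_smul, hV, map_one]
    ring
  rw [hd] at hdet
  apply h2
  have : (1 : k) + 1 = 0 := by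
    nth_rewrite 1 [hdet]
    ring
  rw [← one_add_one_eq_two]
  exact this

/-- an involution of determinant `-1` on a plane has the eigenvalue `-1` -/
theorem exists_neg (h2 : (2 : k) ≠ 0) (f : Module.End k V)
    (hf : f * f = 1) (hdet : LinearMap.det f = -1) : ∃ u : V, u ≠ 0 ∧ f u = -u := by
  by_contra hcon
  push Not at hcon
  have hone : f = 1 := by
    apply LinearMap.ext
    intro v
    have hfix : f (v - f v) = -(v - f v) := by
      rw [map_sub, ← Module.End.mul_apply, hf, Module.End.one_apply, neg_sub]
    have h0 : v - f v = 0 := by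
      by_contra hne
      exact hcon _ hne hfix
    rw [Module.End.one_apply]
    exact (sub_eq_zero.mp h0).symm
  rw [hone, map_one] at hdet
  apply h2
  have : (1 : k) + 1 = 0 := by
    nth_rewrite 1 [hdet]
    ring
  rw [← one_add_one_eq_two]
  exact this

/-- eigenvectors of an endomorphism for the eigenvalues `1` and `-1` are linearly independent -/
theorem linearIndependent_pair (h2 : (2 : k) ≠ 0) (f : Module.End k V) {u0 u1 : V}
    (h0 : u0 ≠ 0) (h1 : u1 ≠ 0) (hf0 : f u0 = u0) (hf1 : f u1 = -u1) :
    LinearIndependent k ![u0, u1] := by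
  rw [LinearIndependent.pair_iff]
  intro s t hst
  have h3 : s • u0 - t • u1 = 0 := by
    have := congrArg f hst
    rw [map_add, map_smul, map_smul, hf0, hf1, map_zero, smul_neg, ← sub_eq_add_neg] at this
    exact this
  have hs : (2 * s) • u0 = 0 := by
    have : (2 * s) • u0 = (s • u0 + t • u1) + (s • u0 - t • u1) := by
      rw [mul_smul, two_smul]
      abel
    rw [this, hst, h3, add_zero]
  have hs0 : s = 0 := by
    rcases smul_eq_zero.mp hs with h | h
    · rcases mul_eq_zero.mp h with h' | h'
      · exact absurd h' h2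
      · exact h'
    · exact absurd h h0
  refine ⟨hs0, ?_⟩
  rw [hs0, zero_smul, zero_add] at hst
  rcases smul_eq_zero.mp hst with h | h
  · exact h
  · exact absurd h h1

/-- **eigenbasis of an odd involution** -/
theorem exists_eigenbasis (h2 : (2 : k) ≠ 0) (hV : finrank k V = 2) (f : Module.End k V)
    (hf : f * f = 1) (hdet : LinearMap.det f = -1) :
    ∃ b : Basis (Fin 2) k V, f (b 0) = b 0 ∧ f (b 1) = -b 1 := by
  obtain ⟨u0, h0, hf0⟩ := exists_fixed h2 hV f hf hdet
  obtain ⟨u1, h1, hf1⟩ := exists_neg h2 f hf hdet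
  have hli := linearIndependent_pair h2 f h0 h1 hf0 hf1
  have hcard : Fintype.card (Fin 2) = finrank k V := by rw [hV, Fintype.card_fin]
  refine ⟨basisOfLinearIndependentOfCardEqFinrank hli hcard, ?_, ?_⟩
  · rw [coe_basisOfLinearIndependentOfCardEqFinrank]
    exact hf0
  · rw [coe_basisOfLinearIndependentOfCardEqFinrank]
    exact hf1

theorem toMatrix_of_eigenbasis (b : Basis (Fin 2) k V) (f : Module.End k V)
    (hf0 : f (b 0) = b 0) (hf1 : f (b 1) = -b 1) :
    LinearMap.toMatrix b b f = !![1, 0; 0, -1] := by
  ext i j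
  rw [LinearMap.toMatrix_apply]
  fin_cases j
  · show b.repr (f (b 0)) i = _
    rw [hf0, Basis.repr_self]
    fin_cases i <;> simp
  · show b.repr (f (b 1)) i = _
    rw [hf1, map_neg, Basis.repr_self]
    fin_cases i <;> simp

variable {G : Type*} [Group G] (r : G →* Module.End k V)

/-- the expansion of `r g (b j)` in the basis `b` -/
theorem apply_basis (b : Basis (Fin 2) k V) (g : G) (j : Fin 2) :
    r g (b j) = LinearMap.toMatrix b b (r g) 0 j • b 0 + LinearMap.toMatrix b b (r g) 1 j • b 1 := by
  rw [LinearMap.toMatrix_apply, LinearMap.toMatrix_apply]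
  have := b.sum_repr (r g (b j))
  rw [Fin.sum_univ_two] at this
  exact this.symm

/-- no coordinate line is stable: the off-diagonal entries do not vanish identically -/
theorem exists_offDiag_ne_zero (hV : finrank k V = 2)
    (hirr : ∀ N : Submodule k V, (∀ g : G, ∀ x ∈ N, r g x ∈ N) → N = ⊥ ∨ N = ⊤)
    (b : Basis (Fin 2) k V) (i j : Fin 2) (hij : i ≠ j) :
    ∃ g : G, LinearMap.toMatrix b b (r g) i j ≠ 0 := by
  by_contra hcon
  push Not at hcon
  -- the line spanned by `b j` is stable
  have hstab : ∀ g : G, ∀ x ∈ Submodule.span k {b j}, r g x ∈ Submodule.span k {b j} := by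
    intro g x hx
    obtain ⟨a, rfl⟩ := Submodule.mem_span_singleton.mp hx
    rw [map_smul]
    apply Submodule.smul_mem
    rw [apply_basis r b g j]
    have hz := hcon g
    fin_cases i <;> fin_cases j
    · exact absurd rfl hij
    · -- i = 0, j = 1
      have hz' : LinearMap.toMatrix b b (r g) 0 1 = 0 := hz
      show LinearMap.toMatrix b b (r g) 0 1 • b 0 + LinearMap.toMatrix b b (r g) 1 1 • b 1
        ∈ Submodule.span k {b 1}
      rw [hz', zero_smul, zero_add]
      exact Submodule.smul_mem _ _ (Submodule.mem_span_singleton_self _)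
    · have hz' : LinearMap.toMatrix b b (r g) 1 0 = 0 := hz
      show LinearMap.toMatrix b b (r g) 0 0 • b 0 + LinearMap.toMatrix b b (r g) 1 0 • b 1
        ∈ Submodule.span k {b 0}
      rw [hz', zero_smul, add_zero]
      exact Submodule.smul_mem _ _ (Submodule.mem_span_singleton_self _)
    · exact absurd rfl hij
  rcases hirr _ hstab with h | h
  · have : b j ∈ Submodule.span k {b j} := Submodule.mem_span_singleton_self _
    rw [h, Submodule.mem_bot] at this
    exact b.ne_zero j this
  · have h1 : finrank k (Submodule.span k {b j}) = 1 := finrank_span_singleton (b.ne_zero j)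
    rw [h, finrank_top, hV] at h1
    omega

/-- **irreducible + odd**: the basis required by `AbsIrr.surjective_rhoAlg_of_diag`. -/
theorem exists_basis_of_odd (h2 : (2 : k) ≠ 0) (hV : finrank k V = 2)
    (hirr : ∀ N : Submodule k V, (∀ g : G, ∀ x ∈ N, r g x ∈ N) → N = ⊥ ∨ N = ⊤)
    (c : G) (hc : c * c = 1) (hdet : LinearMap.det (r c) = -1) :
    ∃ b : Basis (Fin 2) k V, LinearMap.toMatrix b b (r c) = !![1, 0; 0, -1] ∧
      (∃ g : G, LinearMap.toMatrix b b (r g) 0 1 ≠ 0) ∧
      (∃ g : G, LinearMap.toMatrix b b (r g) 1 0 ≠ 0) := by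
  have hf : r c * r c = 1 := by rw [← map_mul, hc, map_one]
  obtain ⟨b, hb0, hb1⟩ := exists_eigenbasis h2 hV (r c) hf hdet
  exact ⟨b, toMatrix_of_eigenbasis b (r c) hb0 hb1,
    exists_offDiag_ne_zero r hV hirr b 0 1 (by decide),
    exists_offDiag_ne_zero r hV hirr b 1 0 (by decide)⟩

end Fermat.Agent.S40x.A1.OddBasis
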